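import Fermat.Agent.PisanoPeriod.Basic
import Mathlib.Algebra.CharP.Algebra
import Mathlib.Data.Nat.Factorization.Induction
import Mathlib.NumberTheory.LegendreSymbol.QuadraticReciprocity
import Mathlib.Tactic.Linarith
import Mathlib.Tactic.NormNum.NatFib

/-!
# Periods at primes and the bound `6 m`
-/

set_option autoImplicit false

namespace FA.PisanoPeriod

open QuadraticAlgebra

theorem pisano_one : pisano 1 = 1 :=
  Nat.dvd_one.1 ((pisano_dvd_iff 1 1).2 ⟨one_dvd _, Nat.modEq_one⟩)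

theorem pisano_two : pisano 2 = 3 := by
  refine ((Nat.dvd_prime Nat.prime_three).1 ((pisano_dvd_iff 2 3).2 ⟨by decide, by decide⟩))
    |>.resolve_left fun h => ?_
  have := ((pisano_dvd_iff 2 1).1 (h ▸ dvd_rfl)).1
  simp at this

theorem pisano_five : pisano 5 = 20 := by
  have h20 : pisano 5 ∣ 20 := (pisano_dvd_iff 5 20).2
    ⟨by norm_num, by norm_num [Nat.ModEq]⟩
  have h10 : ¬pisano 5 ∣ 10 := fun h => by
    have := ((pisano_dvd_iff 5 10).1 h).2
    norm_num [Nat.ModEq] at this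
  have h4 : ¬pisano 5 ∣ 4 := fun h => by
    have := ((pisano_dvd_iff 5 4).1 h).2
    norm_num [Nat.ModEq] at this
  have hle := Nat.le_of_dvd (by norm_num) h20
  interval_cases h : pisano 5 <;> omega

theorem isSquare_zmod_five :
    ∀ r : ℕ, r < 5 → (IsSquare (r : ZMod 5) ↔ r = 0 ∨ r = 1 ∨ r = 4) := by
  decide

theorem w_pow_prime {p : ℕ} [hp : Fact p.Prime] (h2 : p ≠ 2) (h5 : p ≠ 5) :
    (p % 5 = 1 ∨ p % 5 = 4 → w (ZMod p) ^ p = w (ZMod p)) ∧
      (p % 5 = 2 ∨ p % 5 = 3 → w (ZMod p) ^ p = 1 - w (ZMod p)) := by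
  have : Fact (Nat.Prime 5) := ⟨Nat.prime_five⟩
  have : ExpChar (Golden (ZMod p)) p :=
    have := charP_of_injective_algebraMap (R := ZMod p) (A := Golden (ZMod p))
      (fun a b h => by simpa using congrArg re h) p
    .prime hp.out
  obtain ⟨k, hk⟩ := hp.out.odd_of_ne_two h2
  have hsq : (2 * w (ZMod p) - 1) ^ 2 = 5 := by
    rw [sq, sub_mul, mul_sub, mul_assoc, mul_left_comm (w _), ← mul_assoc]
    linear_combination 4 * w_mul_sub_one (ZMod p)
  have hfrob : 2 * w (ZMod p) ^ p - 1 = (5 : Golden (ZMod p)) ^ k * (2 * w (ZMod p) - 1) := by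
    calc 2 * w (ZMod p) ^ p - 1 = (2 * w (ZMod p) - 1) ^ p := by
          have h := map_sub (frobenius (Golden (ZMod p)) p) (2 * w (ZMod p)) 1
          rw [map_mul, map_ofNat, map_one, frobenius_def, frobenius_def] at h
          exact h.symm
      _ = (2 * w (ZMod p) - 1) ^ (2 * k + 1) := congrArg _ hk
      _ = _ := by rw [pow_succ, pow_mul, hsq]
  have hhalf : (2 : Golden (ZMod p)) * ((k + 1 : ℕ) : Golden (ZMod p)) = 1 := by
    have h0 : ((p : ℕ) : Golden (ZMod p)) = 0 := by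
      rw [← map_natCast (algebraMap (ZMod p) (Golden (ZMod p))), ZMod.natCast_self, map_zero]
    have h0' : ((2 * k + 1 : ℕ) : Golden (ZMod p)) = 0 :=
      (congrArg Nat.cast hk.symm).trans h0
    push_cast at h0' ⊢
    linear_combination h0'
  have h5z : (5 : ZMod p) ≠ 0 := fun h => h5 <| by
    have h' : ((5 : ℕ) : ZMod p) = 0 := by exact_mod_cast h
    exact ((Nat.prime_dvd_prime_iff_eq hp.out Nat.prime_five).1
      ((ZMod.natCast_eq_zero_iff _ _).1 h'))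
  have hqr : IsSquare (5 : ZMod p) ↔ IsSquare (p : ZMod 5) := by
    simpa using
      (ZMod.exists_sq_eq_prime_iff_of_mod_four_eq_one (p := 5) (q := p) (by norm_num) h2).symm
  have hres : IsSquare (p : ZMod 5) ↔ p % 5 = 0 ∨ p % 5 = 1 ∨ p % 5 = 4 := by
    rw [← ZMod.natCast_mod]
    have := Nat.mod_lt p (show 0 < 5 by norm_num)
    exact isSquare_zmod_five _ this
  have hk2 : p / 2 = k := by omega
  constructor
  · intro h
    have h1 : (5 : ZMod p) ^ k = 1 :=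
      hk2 ▸ (ZMod.euler_criterion p h5z).1 (hqr.2 (hres.2 (Or.inr h)))
    have h1' := congrArg (algebraMap (ZMod p) (Golden (ZMod p))) h1
    rw [map_pow, map_ofNat, map_one] at h1'
    linear_combination ((k + 1 : ℕ) : Golden (ZMod p)) *
      (hfrob.trans (by rw [h1', one_mul])) + (w (ZMod p) - w (ZMod p) ^ p) * hhalf
  · intro h
    have hnot : ¬IsSquare (5 : ZMod p) := by
      rw [hqr, hres]
      omega
    have h1 : (5 : ZMod p) ^ k = -1 :=
      hk2 ▸ (ZMod.pow_div_two_eq_neg_one_or_one p h5z).resolve_left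
        (fun e => hnot ((ZMod.euler_criterion p h5z).2 e))
    have h1' := congrArg (algebraMap (ZMod p) (Golden (ZMod p))) h1
    rw [map_pow, map_ofNat, map_neg, map_one] at h1'
    linear_combination ((k + 1 : ℕ) : Golden (ZMod p)) *
      (hfrob.trans (by rw [h1', neg_one_mul])) +
      (1 - w (ZMod p) - w (ZMod p) ^ p) * hhalf

theorem pisano_prime_dvd {p : ℕ} [hp : Fact p.Prime] (h2 : p ≠ 2) (h5 : p ≠ 5) :
    (p % 5 = 1 ∨ p % 5 = 4 → pisano p ∣ p - 1) ∧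
      (p % 5 = 2 ∨ p % 5 = 3 → pisano p ∣ 2 * (p + 1)) := by
  refine ⟨fun h => orderOf_dvd_of_pow_eq_one ((w_isUnit _).mul_left_inj.1 ?_),
    fun h => orderOf_dvd_of_pow_eq_one ?_⟩
  · rw [one_mul, ← pow_succ, Nat.sub_add_cancel hp.out.one_le, (w_pow_prime h2 h5).1 h]
  · rw [mul_comm, pow_mul, pow_succ _ p, (w_pow_prime h2 h5).2 h]
    linear_combination (w (ZMod p) * (w (ZMod p) - 1) + 1) * w_mul_sub_one (ZMod p)

/-- A prime other than `5` divides `F (p - 1)` or `F (p + 1)`. -/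
theorem prime_dvd_fib_pred_or_succ {p : ℕ} (hp : p.Prime) (h5 : p ≠ 5) :
    p ∣ (p - 1).fib ∨ p ∣ (p + 1).fib := by
  rcases eq_or_ne p 2 with rfl | h2
  · right
    decide
  have : Fact p.Prime := ⟨hp⟩
  have h0 : p % 5 ≠ 0 := fun h => h5
    ((Nat.prime_dvd_prime_iff_eq Nat.prime_five hp).1 (Nat.dvd_of_mod_eq_zero h)).symm
  have hmod := Nat.mod_lt p (show 0 < 5 by norm_num)
  rcases (by omega : (p % 5 = 1 ∨ p % 5 = 4) ∨ (p % 5 = 2 ∨ p % 5 = 3)) with h | h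
  · exact Or.inl ((pisano_dvd_iff p _).1 ((pisano_prime_dvd h2 h5).1 h)).1
  · right
    have e := (w_pow_prime h2 h5).2 h
    have hs : w (ZMod p) ^ (p + 1) = -1 := by
      rw [pow_succ, e]
      linear_combination -w_mul_sub_one (ZMod p)
    rw [w_pow, QuadraticAlgebra.ext_iff] at hs
    exact (ZMod.natCast_eq_zero_iff _ _).1 (by simpa using hs.2)

theorem five_pow_step {R : Type*} [CommRing R] (M u : R) :
    ∃ z, (1 + 5 * M * u) ^ 5 = 1 + 25 * M * (u + 5 * z) :=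
  ⟨2 * M * u ^ 2 + 10 * M ^ 2 * u ^ 3 + 25 * M ^ 3 * u ^ 4 + 25 * M ^ 4 * u ^ 5, by ring⟩

theorem exists_five_unit (j : ℕ) : ∃ u : Golden ℤ,
    w ℤ ^ (20 * 5 ^ j) = 1 + 5 * 5 ^ j * u ∧ ¬(5 : ℤ) ∣ u.im := by
  induction j with
  | zero =>
    refine ⟨⟨836, 1353⟩, ?_, by norm_num⟩
    rw [show 20 * 5 ^ 0 = 19 + 1 from rfl, w_pow, pow_zero, mul_one]
    ext <;> norm_num [re_ofNat, im_ofNat]
  | succ j ih =>
    obtain ⟨u, hu, hu'⟩ := ih
    obtain ⟨z, hz⟩ := five_pow_step ((5 : Golden ℤ) ^ j) u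
    refine ⟨u + 5 * z, ?_, ?_⟩
    · rw [pow_succ, ← mul_assoc, pow_mul, hu, hz, pow_succ]
      ring
    · simp only [im_add, im_mul, re_ofNat, im_ofNat, zero_mul, mul_zero, add_zero]
      intro h
      exact hu' ((dvd_add_left ⟨z.im, rfl⟩).1 h)

theorem pisano_five_pow (k : ℕ) : pisano (5 ^ (k + 1)) = 4 * 5 ^ (k + 1) := by
  have hd := pisano_prime_pow_dvd 5 k
  have h20 := pisano_dvd_of_dvd (dvd_pow_self 5 (Nat.add_one_ne_zero k))
  rw [pisano_five] at hd h20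
  obtain ⟨e, he⟩ := h20
  rw [he, mul_comm] at hd
  obtain ⟨i, hi, rfl⟩ :=
    (Nat.dvd_prime_pow Nat.prime_five).1 (Nat.dvd_of_mul_dvd_mul_right (by norm_num) hd)
  rcases eq_or_lt_of_le hi with rfl | hlt
  · rw [he, pow_succ]
    ring
  exfalso
  obtain ⟨j, rfl⟩ : ∃ j, k = j + 1 := ⟨k - 1, by omega⟩
  obtain ⟨u, hu, hu'⟩ := exists_five_unit j
  have h := (pisano_dvd_iff_int _ (20 * 5 ^ j)).1
    (he ▸ mul_dvd_mul_left 20 (pow_dvd_pow 5 (show i ≤ j by omega)))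
  rw [hu, add_sub_cancel_left, ← pow_succ' (5 : Golden ℤ) j,
    show ((5 : Golden ℤ) ^ (j + 1)) = (((5 : ℤ) ^ (j + 1) : ℤ) : Golden ℤ) by norm_num,
    ← Int.cast_natCast, intCast_dvd_iff] at h
  have h' := h.2
  simp only [im_mul, re_intCast, im_intCast, Int.cast_id, zero_mul, add_zero, mul_zero,
    Nat.cast_pow, Nat.cast_ofNat] at h'
  rw [pow_succ] at h'
  exact hu' ((mul_dvd_mul_iff_left (pow_ne_zero _ (by norm_num))).1 h')

theorem exists_bound_prime_pow {p : ℕ} (hp : p.Prime) (e : ℕ) (hodd : Odd (p ^ (e + 1))) :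
    ∃ H, 0 < H ∧ pisano (p ^ (e + 1)) ∣ 4 * H ∧ H ≤ p ^ (e + 1) ∧
      (H = p ^ (e + 1) → ∃ k, p ^ (e + 1) = 5 ^ k) := by
  rcases eq_or_ne p 5 with rfl | h5
  · exact ⟨5 ^ (e + 1), by positivity, (pisano_five_pow e).dvd, le_rfl, fun _ => ⟨e + 1, rfl⟩⟩
  have : Fact p.Prime := ⟨hp⟩
  have hodd' : Odd p := (Nat.odd_pow_iff (Nat.add_one_ne_zero e)).1 hodd
  obtain ⟨k, hk⟩ := hodd'
  have h2 : p ≠ 2 := by omega
  have h3 := hp.two_le
  have hpos : 0 < p ^ e := pow_pos hp.pos e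
  obtain ⟨d1, d2⟩ := pisano_prime_dvd h2 h5
  have h0 : p % 5 ≠ 0 := fun h => h5
    ((Nat.prime_dvd_prime_iff_eq Nat.prime_five hp).1 (Nat.dvd_of_mod_eq_zero h)).symm
  have hmod := Nat.mod_lt p (show 0 < 5 by norm_num)
  refine ⟨p ^ e * (k + 1 - if p % 5 = 1 ∨ p % 5 = 4 then 1 else 0),
    Nat.mul_pos hpos (by split_ifs <;> omega), ?_, ?_, fun h => ?_⟩
  · refine (pisano_prime_pow_dvd p e).trans ?_
    rw [mul_left_comm]
    refine mul_dvd_mul_left _ ?_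
    split_ifs with h
    · exact (d1 h).trans ⟨2, by omega⟩
    · have := d2 (by omega)
      rwa [show 2 * (p + 1) = 4 * (k + 1 - 0) by omega] at this
  · rw [pow_succ]
    exact Nat.mul_le_mul_left _ (by omega)
  · rw [pow_succ] at h
    have := Nat.eq_of_mul_eq_mul_left hpos h
    omega

theorem exists_bound_odd (r : ℕ) : Odd r →
    ∃ H, 0 < H ∧ pisano r ∣ 4 * H ∧ H ≤ r ∧ (H = r → ∃ k, r = 5 ^ k) := by
  refine Nat.recOnPosPrimePosCoprime (motive := fun r => Odd r →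
    ∃ H, 0 < H ∧ pisano r ∣ 4 * H ∧ H ≤ r ∧ (H = r → ∃ k, r = 5 ^ k)) (fun p n hp hn hodd => ?_)
    (fun h => absurd h (by decide))
    (fun _ => ⟨1, one_pos, by simp [pisano_one], le_rfl, fun _ => ⟨0, rfl⟩⟩)
    (fun a b ha hb hab iha ihb hodd => ?_) r
  · obtain ⟨e, rfl⟩ : ∃ e, n = e + 1 := ⟨n - 1, by omega⟩
    exact exists_bound_prime_pow hp e hodd
  · rw [Nat.odd_mul] at hodd
    obtain ⟨A, hA0, hA1, hA2, hA3⟩ := iha hodd.1
    obtain ⟨B, hB0, hB1, hB2, hB3⟩ := ihb hodd.2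
    refine ⟨A * B, Nat.mul_pos hA0 hB0, ?_, Nat.mul_le_mul hA2 hB2, fun h => ?_⟩
    · rw [pisano_mul hab]
      exact Nat.lcm_dvd (hA1.trans ⟨B, by ring⟩) (hB1.trans ⟨A, by ring⟩)
    · rcases hA2.eq_or_lt with rfl | hlt
      · obtain ⟨i, hi⟩ := hA3 rfl
        obtain ⟨j, hj⟩ := hB3 (Nat.eq_of_mul_eq_mul_left (by omega) h)
        exact ⟨i + j, by rw [pow_add, hi, hj]⟩
      · nlinarith [Nat.mul_le_mul_left A hB2, Nat.mul_lt_mul_of_pos_right hlt (by omega : 0 < b)]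

theorem pisano_two_mul_five_pow (k : ℕ) :
    pisano (2 * 5 ^ (k + 1)) = 6 * (2 * 5 ^ (k + 1)) := by
  rw [pisano_mul (Nat.Coprime.pow_right _ (by norm_num)), pisano_two, pisano_five_pow,
    Nat.Coprime.lcm_eq_mul]
  · ring
  · exact Nat.Coprime.mul_right (by norm_num) (Nat.Coprime.pow_right _ (by norm_num))

/-- `π(m) ≤ 6 m`, with equality exactly at `2 ⬝ 5 ^ k`. -/
theorem pisano_le (m : ℕ) (hm : 0 < m) :
    pisano m ≤ 6 * m ∧ (pisano m = 6 * m ↔ ∃ k, 0 < k ∧ m = 2 * 5 ^ k) := by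
  obtain ⟨a, r, hr, hmr⟩ := Nat.exists_eq_two_pow_mul_odd hm.ne'
  obtain ⟨H, hH0, hH1, hH2, hH3⟩ := exists_bound_odd r hr
  have hrpos : 0 < r := hr.pos
  have hnot : ∀ k, 0 < k → a ≠ 1 → m ≠ 2 * 5 ^ k := by
    intro k _ ha h
    rw [hmr] at h
    rcases a with _ | _ | a
    · rw [pow_zero, one_mul] at h
      exact (Nat.not_even_iff_odd.2 hr) (h ▸ even_two_mul _)
    · exact ha rfl
    · have h' : 2 ^ (a + 1) * r = 5 ^ k := by
        rw [pow_succ', mul_assoc] at h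
        exact mul_left_cancel₀ two_ne_zero h
      have hd : 2 ∣ 5 ^ k := h' ▸ dvd_mul_of_dvd_left (dvd_pow_self 2 (Nat.add_one_ne_zero a)) r
      exact absurd (Nat.prime_two.dvd_of_dvd_pow hd) (by norm_num)
  have hcop : ∀ b, (2 ^ b).Coprime r := fun b => Nat.Coprime.pow_left _ hr.coprime_two_left
  rcases a with _ | _ | a
  · rw [pow_zero, one_mul] at hmr
    subst hmr
    have h := Nat.le_of_dvd (by omega) hH1
    exact ⟨by omega, fun h' => by omega, fun ⟨k, hk, e⟩ => absurd e (hnot k hk (by omega))⟩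
  · rw [zero_add, pow_one] at hmr
    subst hmr
    have h : pisano (2 * r) ≤ 12 * H := by
      rw [pisano_mul (by simpa using hcop 1), pisano_two]
      exact Nat.le_of_dvd (by omega)
        (Nat.lcm_dvd ⟨4 * H, by ring⟩ (hH1.trans ⟨3, by ring⟩))
    refine ⟨by omega, fun h' => ?_, fun ⟨k, hk, e⟩ => ?_⟩
    · obtain ⟨k, hk⟩ := hH3 (by omega)
      refine ⟨k, Nat.pos_of_ne_zero ?_, by rw [hk]⟩
      rintro rfl
      rw [hk, pow_zero, mul_one, pisano_two] at h'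
      omega
    · obtain ⟨j, rfl⟩ : ∃ j, k = j + 1 := ⟨k - 1, by omega⟩
      rw [e, pisano_two_mul_five_pow]
  · have hm' : m = 4 * 2 ^ a * r := by rw [hmr]; ring
    have h2 : pisano (2 ^ (a + 1 + 1)) ∣ 3 * 2 ^ (a + 1) := by
      have h := pisano_prime_pow_dvd 2 (a + 1)
      rwa [pisano_two, mul_comm] at h
    have h : pisano m ≤ 3 * (4 * 2 ^ a * H) := by
      rw [hmr, pisano_mul (hcop _)]
      refine Nat.le_of_dvd (by positivity) (Nat.lcm_dvd (h2.trans ⟨2 * H, by ring⟩)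
        (hH1.trans ⟨3 * 2 ^ a, by ring⟩))
    have h' : 4 * 2 ^ a * H ≤ m := hm' ▸ Nat.mul_le_mul_left _ hH2
    exact ⟨by omega, fun h' => by omega, fun ⟨k, hk, e⟩ => absurd e (hnot k hk (by omega))⟩

end FA.PisanoPeriod
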