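import Mathlib.Algebra.QuadraticAlgebra.Basic
import Mathlib.Data.Nat.Fib.Basic
import Mathlib.Data.ZMod.Basic
import Mathlib.GroupTheory.OrderOfElement
import Mathlib.NumberTheory.Basic
import Mathlib.Tactic.LinearCombination

/-!
# The Fibonacci period as an order

`ω ^ (n + 1) = F n + F (n + 1) ω` for `ω ^ 2 = 1 + ω`, so the period of the Fibonacci numbers
modulo `m` is the order of `ω` modulo `m`.
-/

set_option autoImplicit false

namespace FA.PisanoPeriod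

open QuadraticAlgebra

section Ring

variable (R : Type*) [CommRing R]

/-- `R[ω]` with `ω ^ 2 = 1 + ω`. -/
abbrev Golden : Type _ := QuadraticAlgebra R 1 1

/-- The root `ω`. -/
def w : Golden R := ⟨0, 1⟩

theorem w_mul_sub_one : w R * (w R - 1) = 1 := by
  ext <;> simp [w]

theorem w_isUnit : IsUnit (w R) := .of_mul_eq_one _ (w_mul_sub_one R)

theorem w_pow (n : ℕ) : w R ^ (n + 1) = ⟨(n.fib : R), ((n + 1).fib : R)⟩ := by
  induction n with
  | zero => simp [w]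
  | succ n ih =>
    rw [pow_succ, ih]
    ext <;> simp [w, Nat.fib_add_two]

theorem w_pow_eq_one_iff (j : ℕ) :
    w R ^ j = 1 ↔ (j.fib : R) = 0 ∧ ((j + 1).fib : R) = 1 := by
  rw [← (w_isUnit R).mul_left_inj, one_mul, ← pow_succ, w_pow, QuadraticAlgebra.ext_iff]
  rfl

end Ring

/-- The Fibonacci period modulo `m`. -/
noncomputable def pisano (m : ℕ) : ℕ := orderOf (w (ZMod m))

theorem pisano_dvd_iff (m j : ℕ) :
    pisano m ∣ j ↔ m ∣ j.fib ∧ (j + 1).fib ≡ 1 [MOD m] := by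
  rw [pisano, orderOf_dvd_iff_pow_eq_one, w_pow_eq_one_iff, ZMod.natCast_eq_zero_iff,
    ← ZMod.natCast_eq_natCast_iff, Nat.cast_one]

theorem pisano_pos (m : ℕ) [NeZero m] : 0 < pisano m := by
  have : Finite (Golden (ZMod m)) := Finite.of_equiv _ (equivProd 1 1).symm
  obtain ⟨u, hu⟩ := w_isUnit (ZMod m)
  rw [pisano, ← hu, orderOf_units]
  exact orderOf_pos u

theorem fib_add_pisano (m n : ℕ) : (n + pisano m).fib ≡ n.fib [MOD m] := by
  have h := w_pow (ZMod m) (n + pisano m)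
  rw [add_right_comm, pow_add, pisano, pow_orderOf_eq_one, mul_one, w_pow,
    QuadraticAlgebra.ext_iff] at h
  exact (ZMod.natCast_eq_natCast_iff _ _ _).1 h.1.symm

theorem pisano_dvd_of_dvd {m n : ℕ} (h : m ∣ n) : pisano m ∣ pisano n :=
  (pisano_dvd_iff m _).2
    ⟨h.trans ((pisano_dvd_iff n _).1 dvd_rfl).1, ((pisano_dvd_iff n _).1 dvd_rfl).2.of_dvd h⟩

theorem pisano_lcm (a b : ℕ) : pisano (Nat.lcm a b) = Nat.lcm (pisano a) (pisano b) := by
  refine Nat.dvd_antisymm ((pisano_dvd_iff _ _).2 ⟨Nat.lcm_dvd ?_ ?_, ?_⟩)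
    (Nat.lcm_dvd (pisano_dvd_of_dvd (Nat.dvd_lcm_left a b))
      (pisano_dvd_of_dvd (Nat.dvd_lcm_right a b)))
  · exact ((pisano_dvd_iff _ _).1 (Nat.dvd_lcm_left _ _)).1
  · exact ((pisano_dvd_iff _ _).1 (Nat.dvd_lcm_right _ _)).1
  · rw [Nat.modEq_iff_dvd]
    exact Int.coe_lcm_dvd
      (Nat.modEq_iff_dvd.1 ((pisano_dvd_iff a _).1 (Nat.dvd_lcm_left _ _)).2)
      (Nat.modEq_iff_dvd.1 ((pisano_dvd_iff b _).1 (Nat.dvd_lcm_right _ _)).2)

theorem pisano_mul {a b : ℕ} (h : a.Coprime b) :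
    pisano (a * b) = Nat.lcm (pisano a) (pisano b) := by
  rw [← pisano_lcm, h.lcm_eq_mul]

theorem intCast_dvd_iff (N : ℤ) (z : Golden ℤ) :
    (N : Golden ℤ) ∣ z ↔ N ∣ z.re ∧ N ∣ z.im := by
  rw [← algebraMap_dvd_iff (a := (1 : ℤ)) (b := (1 : ℤ))]
  simp

/-- The same over `ℤ`. -/
theorem pisano_dvd_iff_int (m j : ℕ) : pisano m ∣ j ↔ (m : Golden ℤ) ∣ w ℤ ^ j - 1 := by
  rw [← (w_isUnit ℤ).dvd_mul_right, sub_mul, one_mul, ← pow_succ, w_pow, ← Int.cast_natCast,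
    intCast_dvd_iff, pisano_dvd_iff]
  simp only [re_sub, im_sub, w, sub_zero]
  rw [Int.natCast_dvd_natCast, Nat.modEq_iff_dvd, Nat.cast_one, dvd_sub_comm]

theorem pisano_prime_pow_dvd (p e : ℕ) : pisano (p ^ (e + 1)) ∣ p ^ e * pisano p := by
  have h := dvd_sub_pow_of_dvd_sub ((pisano_dvd_iff_int p _).1 (dvd_refl (pisano p))) e
  rw [one_pow, ← pow_mul, mul_comm, ← Nat.cast_pow] at h
  exact (pisano_dvd_iff_int _ _).2 h

end FA.PisanoPeriod
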